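import Mathlib

/-!
# ES / Coh : the universal torsion free quotient of a finitely generated group killing a set

For a finitely generated group `Γ` and a set `P ⊆ Γ` there are `r` and a surjective
homomorphism `π : Γ → ℤ^r` killing `P` through which every homomorphism to a torsion free
abelian group killing `P` factors (uniquely).
-/

set_option autoImplicit false

namespace Fermat.Agent.ES.Coh

/-- abstract module version -/
theorem exists_universal_lin (M : Type*) [AddCommGroup M] [Module.Finite ℤ M] (P : Set M) :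
    ∃ (r : ℕ) (π : M →ₗ[ℤ] (Fin r → ℤ)), Function.Surjective π ∧
      (∀ x ∈ P, π x = 0) ∧
      ∀ (A : Type) [AddCommGroup A] [IsAddTorsionFree A] (χ : M →ₗ[ℤ] A),
        (∀ x ∈ P, χ x = 0) → ∃ a : Fin r → A, ∀ x, χ x = ∑ i, π x i • a i := by
  classical
  let P' : Submodule ℤ M := Submodule.span ℤ P
  let Q := M ⧸ P'
  let Q' := Q ⧸ Submodule.torsion ℤ Q
  have : Module.Free ℤ Q' := Module.free_of_finite_type_torsion_free'
  let b := Module.finBasis ℤ Q'
  let q : M →ₗ[ℤ] Q' := (Submodule.mkQ (Submodule.torsion ℤ Q)).comp (Submodule.mkQ P')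
  have hq : Function.Surjective q :=
    (Submodule.mkQ_surjective _).comp (Submodule.mkQ_surjective _)
  refine ⟨Module.finrank ℤ Q', (b.equivFun : Q' →ₗ[ℤ] _).comp q,
    b.equivFun.surjective.comp hq, fun x hx => ?_, ?_⟩
  · have : Submodule.mkQ P' x = 0 := by
      rw [Submodule.mkQ_apply, Submodule.Quotient.mk_eq_zero]
      exact Submodule.subset_span hx
    simp [q, this]
  · intro A _ _ χ hχ
    have h1 : P' ≤ LinearMap.ker χ := Submodule.span_le.mpr fun x hx => hχ x hx
    let χ1 : Q →ₗ[ℤ] A := Submodule.liftQ P' χ h1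
    have h2 : Submodule.torsion ℤ Q ≤ LinearMap.ker χ1 := by
      intro y hy
      rw [Submodule.mem_torsion_iff] at hy
      obtain ⟨a, ha⟩ := hy
      have h3 : (a : ℤ) • χ1 y = 0 := by
        rw [← map_smul]
        have : (a : ℤ) • y = 0 := ha
        rw [this, map_zero]
      have ha0 : (a : ℤ) ≠ 0 := nonZeroDivisors.coe_ne_zero a
      rw [LinearMap.mem_ker]
      exact (smul_eq_zero_iff_right ha0).mp h3
    let χ2 : Q' →ₗ[ℤ] A := Submodule.liftQ _ χ1 h2
    refine ⟨fun i => χ2 (b i), fun x => ?_⟩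
    have h4 : χ x = χ2 (q x) := by
      show χ x = Submodule.liftQ _ χ1 h2 (Submodule.mkQ _ (Submodule.mkQ P' x))
      rw [Submodule.mkQ_apply, Submodule.liftQ_apply, Submodule.mkQ_apply]
      exact (Submodule.liftQ_apply P' χ x).symm
    rw [h4]
    conv_lhs => rw [← b.sum_equivFun (q x)]
    rw [map_sum]
    refine Finset.sum_congr rfl fun i _ => ?_
    rw [map_smul]
    rfl

theorem exists_universal_hom (Γ : Type*) [Group Γ] [Group.FG Γ] (P : Set Γ) :
    ∃ (r : ℕ) (π : Additive Γ →+ (Fin r → ℤ)), Function.Surjective π ∧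
      (∀ γ ∈ P, π (Additive.ofMul γ) = 0) ∧
      ∀ (A : Type) [AddCommGroup A] [IsAddTorsionFree A] (χ : Additive Γ →+ A),
        (∀ γ ∈ P, χ (Additive.ofMul γ) = 0) →
          ∃ a : Fin r → A, ∀ γ, χ γ = ∑ i, π γ i • a i := by
  classical
  let M := Additive (Abelianization Γ)
  have : Group.FG (Abelianization Γ) :=
    Group.fg_of_surjective (f := Abelianization.of) (QuotientGroup.mk_surjective)
  have : AddGroup.FG M := inferInstance
  have : Module.Finite ℤ M := Module.Finite.iff_addGroup_fg.mpr inferInstance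
  let ab : Additive Γ →+ M := MonoidHom.toAdditive (Abelianization.of (G := Γ))
  have hab : Function.Surjective ab := fun x => by
    obtain ⟨g, hg⟩ := QuotientGroup.mk_surjective (s := commutator Γ) (Additive.toMul x)
    exact ⟨Additive.ofMul g, hg⟩
  obtain ⟨r, π, hπ, hP, huniv⟩ := exists_universal_lin M (ab '' (Additive.ofMul '' P))
  refine ⟨r, π.toAddMonoidHom.comp ab, hπ.comp hab, fun γ hγ => ?_, ?_⟩
  · exact hP _ ⟨_, ⟨γ, hγ, rfl⟩, rfl⟩
  · intro A _ _ χ hχ
    let χm : Γ →* Multiplicative A := AddMonoidHom.toMultiplicativeRight χ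
    let χ1 : M →+ A := MonoidHom.toAdditiveLeft (Abelianization.lift χm)
    have hχ1 : ∀ γ, χ1 (ab γ) = χ γ := fun γ => by
      show Multiplicative.toAdd (Abelianization.lift χm (Abelianization.of (Additive.toMul γ))) = χ γ
      rw [Abelianization.lift_apply_of]
      rfl
    obtain ⟨a, ha⟩ := huniv A χ1.toIntLinearMap (by
      rintro _ ⟨_, ⟨γ, hγ, rfl⟩, rfl⟩
      exact (hχ1 _).trans (hχ γ hγ))
    exact ⟨a, fun γ => by rw [← hχ1]; exact ha (ab γ)⟩

end Fermat.Agent.ES.Coh
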