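import Mathlib
import Fermat.Agent.ES.Coh.Universal
import Fermat.Prelude.Def_ModularCurve_PeriodMap

/-!
# ES / Coh : the lattice `H = Hom_par(Γ₀(N), ℤ)` and parabolic homs with torsion free coefficients
-/

set_option autoImplicit false

open CongruenceSubgroup ModularCurve.Period
open scoped MatrixGroups

namespace Fermat.Agent.ES.Coh

instance fg_SL2Z : Group.FG SL(2, ℤ) :=
  (Group.fg_iff).mpr ⟨{ModularGroup.S, ModularGroup.T}, SpecialLinearGroup.SL2Z_generators,
    by simp⟩

instance fg_Gamma0 (N : ℕ) [NeZero N] : Group.FG (Gamma0 N) := Subgroup.fg_of_index_ne_zero _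

theorem exists_univ (N : ℕ) [NeZero N] :
    ∃ (r : ℕ) (π : Additive (Gamma0 N) →+ (Fin r → ℤ)), Function.Surjective π ∧
      (∀ γ : Gamma0 N, ((γ : SL(2, ℤ)) : Matrix (Fin 2) (Fin 2) ℤ).trace ^ 2 = 4 →
        π (Additive.ofMul γ) = 0) ∧
      ∀ (A : Type) [AddCommGroup A] [IsAddTorsionFree A] (χ : Additive (Gamma0 N) →+ A),
        IsParabolicHom (Gamma0 N) χ → ∃ a : Fin r → A, ∀ γ, χ γ = ∑ i, π γ i • a i :=
  exists_universal_hom (Gamma0 N)
    {γ | ((γ : SL(2, ℤ)) : Matrix (Fin 2) (Fin 2) ℤ).trace ^ 2 = 4}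

/-- the rank of `Hom_par(Γ₀(N), ℤ)` -/
noncomputable def rk (N : ℕ) [NeZero N] : ℕ := (exists_univ N).choose

/-- the universal parabolic homomorphism `Γ₀(N) → ℤ^r` -/
noncomputable def univ (N : ℕ) [NeZero N] : Additive (Gamma0 N) →+ (Fin (rk N) → ℤ) :=
  (exists_univ N).choose_spec.choose

variable (N : ℕ) [NeZero N]

theorem univ_surjective : Function.Surjective (univ N) :=
  (exists_univ N).choose_spec.choose_spec.1

theorem univ_parabolic (γ : Gamma0 N)
    (h : ((γ : SL(2, ℤ)) : Matrix (Fin 2) (Fin 2) ℤ).trace ^ 2 = 4) :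
    univ N (Additive.ofMul γ) = 0 :=
  (exists_univ N).choose_spec.choose_spec.2.1 γ h

theorem univ_factor (A : Type) [AddCommGroup A] [IsAddTorsionFree A]
    (χ : Additive (Gamma0 N) →+ A) (h : IsParabolicHom (Gamma0 N) χ) :
    ∃ a : Fin (rk N) → A, ∀ γ, χ γ = ∑ i, univ N γ i • a i :=
  (exists_univ N).choose_spec.choose_spec.2.2 A χ h

/-- `a ↦ (γ ↦ ∑ i, π(γ)_i • a_i)` -/
noncomputable def mkHom (A : Type*) [AddCommGroup A] :
    (Fin (rk N) → A) →+ (Additive (Gamma0 N) →+ A) where
  toFun a :=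
    { toFun := fun γ => ∑ i, univ N γ i • a i
      map_zero' := by simp
      map_add' := fun γ δ => by simp [add_smul, Finset.sum_add_distrib] }
  map_zero' := by ext; simp
  map_add' a b := by ext; simp [Finset.sum_add_distrib]

theorem mkHom_apply {A : Type*} [AddCommGroup A] (a : Fin (rk N) → A) (γ : Additive (Gamma0 N)) :
    mkHom N A a γ = ∑ i, univ N γ i • a i := rfl

theorem mkHom_parabolic {A : Type*} [AddCommGroup A] (a : Fin (rk N) → A) :
    IsParabolicHom (Gamma0 N) (mkHom N A a) := fun γ h => by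
  rw [mkHom_apply, univ_parabolic N γ h]; simp

theorem mkHom_injective (A : Type*) [AddCommGroup A] : Function.Injective (mkHom N A) := by
  classical
  intro a b hab
  funext i
  obtain ⟨γ, hγ⟩ := univ_surjective N (Pi.single i 1)
  have := DFunLike.congr_fun hab γ
  simpa [mkHom_apply, hγ, Pi.single_apply, ite_smul] using this

theorem exists_mkHom_eq {A : Type} [AddCommGroup A] [IsAddTorsionFree A]
    (χ : Additive (Gamma0 N) →+ A) (h : IsParabolicHom (Gamma0 N) χ) :
    ∃ a, mkHom N A a = χ := by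
  obtain ⟨a, ha⟩ := univ_factor N A χ h
  exact ⟨a, AddMonoidHom.ext fun γ => (ha γ).symm⟩

theorem comp_mkHom {A B : Type*} [AddCommGroup A] [AddCommGroup B] (u : A →+ B)
    (a : Fin (rk N) → A) : u.comp (mkHom N A a) = mkHom N B (fun i => u (a i)) := by
  ext γ
  simp [mkHom_apply, map_sum, map_zsmul]

theorem mkHom_smul {R A : Type*} [Semiring R] [AddCommGroup A] [Module R A] (c : R)
    (a : Fin (rk N) → A) : mkHom N A (c • a) = c • mkHom N A a := by
  ext γ
  simp [mkHom_apply, Finset.smul_sum, smul_comm c]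

/-- The lattice `H = Hom_par(Γ₀(N), ℤ)`. -/
abbrev H : Type := parabolicHoms ℤ (Gamma0 N) ℤ

/-- `A^r ≃ Hom_par(Γ₀(N), A)` for torsion free `A` -/
noncomputable def parEquiv (R A : Type) [Semiring R] [AddCommGroup A] [Module R A]
    [IsAddTorsionFree A] : (Fin (rk N) → A) ≃ₗ[R] parabolicHoms R (Gamma0 N) A :=
  LinearEquiv.ofBijective
    ({ toFun := fun a => ⟨mkHom N A a, mkHom_parabolic N a⟩
       map_add' := fun a b => Subtype.ext (map_add _ a b)
       map_smul' := fun c a => Subtype.ext (mkHom_smul N c a) } :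
      (Fin (rk N) → A) →ₗ[R] parabolicHoms R (Gamma0 N) A)
    ⟨fun a b h => mkHom_injective N A (congrArg Subtype.val h),
      fun χ => by
        obtain ⟨a, ha⟩ := exists_mkHom_eq N χ.1 χ.2
        exact ⟨a, Subtype.ext ha⟩⟩

theorem parEquiv_apply (R A : Type) [Semiring R] [AddCommGroup A] [Module R A]
    [IsAddTorsionFree A] (a : Fin (rk N) → A) :
    ((parEquiv N R A a : parabolicHoms R (Gamma0 N) A) : Additive (Gamma0 N) →+ A) = mkHom N A a :=
  rfl

/-- the basis of `H` -/
noncomputable def basisH : Module.Basis (Fin (rk N)) ℤ (H N) :=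
  Module.Basis.ofEquivFun (parEquiv N ℤ ℤ).symm

instance : Module.Free ℤ (H N) := Module.Free.of_basis (basisH N)
instance : Module.Finite ℤ (H N) := Module.Finite.of_basis (basisH N)

theorem basisH_apply (i : Fin (rk N)) (γ : Additive (Gamma0 N)) :
    (basisH N i : Additive (Gamma0 N) →+ ℤ) γ = univ N γ i := by
  classical
  have : basisH N i = parEquiv N ℤ ℤ (Pi.single i 1) := by
    simp [basisH]
  rw [this, parEquiv_apply, mkHom_apply]
  simp [Pi.single_apply]

end Fermat.Agent.ES.Coh
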