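import Mathlib

/-!
# ES / Coh : abstract construction of the action of a Hecke algebra on a lattice
-/

set_option autoImplicit false

namespace Fermat.Agent.ES.Coh

section
variable {W V L : Type*} [AddCommGroup W] [Module ℂ W] [AddCommGroup V] [Module ℂ V]
  [AddCommGroup L]

/-- `t` preserves the lattice `ι L` under the identification `E`. -/
def Pres (E : (W × W) →ₗ[ℂ] V) (ι : L →+ V) (t : Module.End ℂ W) : Prop :=
  ∀ x : L, ∃ y : L, ∀ f g, ι x = E (f, g) → ι y = E (t f, t g)

/-- the subalgebra of endomorphisms preserving the lattice -/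
def presSubalgebra (E : (W × W) →ₗ[ℂ] V) (ι : L →+ V) : Subalgebra ℤ (Module.End ℂ W) where
  carrier := {t | Pres E ι t}
  mul_mem' := by
    intro a b ha hb x
    obtain ⟨y, hy⟩ := hb x
    obtain ⟨z, hz⟩ := ha y
    exact ⟨z, fun f g h => hz _ _ (hy f g h)⟩
  add_mem' := by
    intro a b ha hb x
    obtain ⟨y, hy⟩ := ha x
    obtain ⟨z, hz⟩ := hb x
    refine ⟨y + z, fun f g h => ?_⟩
    rw [map_add, hy f g h, hz f g h, ← map_add]
    rfl
  algebraMap_mem' := by
    intro n x
    refine ⟨n • x, fun f g h => ?_⟩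
    rw [map_zsmul, h, ← map_zsmul]
    congr 1

theorem exists_theta (E : (W × W) →ₗ[ℂ] V) (hE : Function.Injective E) (ι : L →+ V)
    (hι : Function.Injective ι) (hιE : ∀ x, ι x ∈ LinearMap.range E)
    (hspan : LinearMap.range E ≤ Submodule.span ℂ (Set.range ι))
    (𝕋 : Subalgebra ℤ (Module.End ℂ W)) (h𝕋 : ∀ t ∈ 𝕋, Pres E ι t) :
    ∃ θ : 𝕋 →+* Module.End ℤ L, Function.Injective θ ∧
      ∀ (t : 𝕋) (x : L) (f g : W), ι x = E (f, g) → ι (θ t x) = E (t.1 f, t.1 g) := by
  classical
  choose F hF using fun (t : 𝕋) => h𝕋 t.1 t.2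
  have key : ∀ (t : 𝕋) (x y : L), (∀ f g, ι x = E (f, g) → ι y = E (t.1 f, t.1 g)) →
      F t x = y := by
    intro t x y hy
    obtain ⟨⟨f, g⟩, hfg⟩ := hιE x
    exact hι ((hF t x f g hfg.symm).trans (hy f g hfg.symm).symm)
  let θ0 : 𝕋 → Module.End ℤ L := fun t =>
    (AddMonoidHom.toIntLinearMap
      { toFun := F t
        map_zero' := key t 0 0 (fun f g h => by
          rw [map_zero] at h ⊢
          have : (f, g) = 0 := hE (by rw [← h, map_zero])
          have hf : f = 0 := congrArg Prod.fst this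
          have hg : g = 0 := congrArg Prod.snd this
          rw [hf, hg, map_zero]
          exact (map_zero E).symm)
        map_add' := fun x y => key t (x + y) (F t x + F t y) (fun f g h => by
          obtain ⟨⟨f1, g1⟩, h1⟩ := hιE x
          obtain ⟨⟨f2, g2⟩, h2⟩ := hιE y
          have : (f, g) = (f1, g1) + (f2, g2) := hE (by rw [← h, map_add, map_add, h1, h2])
          have hf : f = f1 + f2 := congrArg Prod.fst this
          have hg : g = g1 + g2 := congrArg Prod.snd this
          rw [map_add, hF t x f1 g1 h1.symm, hF t y f2 g2 h2.symm, ← map_add, hf, hg,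
            map_add t.1, map_add t.1]
          rfl) })
  have hθ0 : ∀ t x, θ0 t x = F t x := fun _ _ => rfl
  refine ⟨{ toFun := θ0, map_one' := ?_, map_mul' := ?_, map_zero' := ?_, map_add' := ?_ }, ?_, ?_⟩
  · refine LinearMap.ext fun x => ?_
    rw [hθ0]
    exact key 1 x x (fun f g h => h)
  · intro a b
    refine LinearMap.ext fun x => ?_
    rw [hθ0]
    exact key (a * b) x (F a (F b x)) (fun f g h => hF a _ _ _ (hF b x f g h))
  · refine LinearMap.ext fun x => ?_
    rw [hθ0]
    exact key 0 x 0 (fun f g h => by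
      rw [map_zero]
      exact (map_zero E).symm)
  · intro a b
    refine LinearMap.ext fun x => ?_
    rw [hθ0]
    exact key (a + b) x (F a x + F b x) (fun f g h => by
      rw [map_add, hF a x f g h, hF b x f g h, ← map_add]
      rfl)
  · rw [injective_iff_map_eq_zero]
    intro t ht
    have ht' : ∀ x, F t x = 0 := fun x => by
      have := LinearMap.congr_fun ht x
      exact this
    let K : Submodule ℂ (W × W) := LinearMap.ker (LinearMap.prodMap t.1 t.1)
    have h1 : Submodule.span ℂ (Set.range ι) ≤ K.map E := by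
      rw [Submodule.span_le]
      rintro _ ⟨x, rfl⟩
      obtain ⟨⟨f, g⟩, hfg⟩ := hιE x
      refine ⟨(f, g), ?_, hfg⟩
      have h2 := hF t x f g hfg.symm
      rw [ht' x, map_zero] at h2
      have : (t.1 f, t.1 g) = 0 := hE (by rw [← h2, map_zero])
      exact this
    apply Subtype.ext
    refine LinearMap.ext fun f => ?_
    obtain ⟨⟨f', g'⟩, hK, hfg⟩ := h1 (hspan ⟨(f, 0), rfl⟩)
    have h3 : (f', g') = (f, 0) := hE hfg
    have h4 : f' = f := congrArg Prod.fst h3
    have h5 : (t.1 f', t.1 g') = 0 := hK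
    have h6 : t.1 f' = 0 := congrArg Prod.fst h5
    rw [h4] at h6
    exact h6
  · intro t x f g h
    exact hF t x f g h

end

end Fermat.Agent.ES.Coh
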