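import Mathlib
import Fermat.Agent.S16.HeckeHomMain
import Fermat.Agent.ES.Coh.Lattice
import Fermat.Agent.ES.Coh.ThetaAbs

/-!
# ES / Coh : the Hecke algebra acts faithfully on `H = Hom_par(Γ₀(N), ℤ)`
-/

set_option autoImplicit false
set_option linter.unusedSectionVars false

open CongruenceSubgroup ModularCurve ModularCurve.Period CuspForm
open scoped MatrixGroups
open Fermat.Agent.S16.HH

namespace Fermat.Agent.ES.Coh

variable (N : ℕ) [NeZero N]

/-- `H → Hom(Γ₀(N), ℂ)` -/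
noncomputable def castH : H N →+ (Additive (Gamma0 N) →+ ℂ) where
  toFun φ := (Int.castAddHom ℂ).comp φ.1
  map_zero' := by ext; simp
  map_add' φ ψ := by ext; simp

theorem castH_apply (φ : H N) : castH N φ = (Int.castAddHom ℂ).comp φ.1 := rfl

theorem castH_injective : Function.Injective (castH N) := by
  intro φ ψ h
  apply Subtype.ext
  ext γ
  have := DFunLike.congr_fun h (Additive.ofMul γ)
  simpa [castH_apply] using this

theorem isParabolicHom_cast_iff (φ : Additive (Gamma0 N) →+ ℤ) :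
    IsParabolicHom (Gamma0 N) ((Int.castAddHom ℂ).comp φ) ↔ IsParabolicHom (Gamma0 N) φ := by
  constructor
  · intro h γ hγ
    have := h γ hγ
    simpa using this
  · intro h γ hγ
    simp [h γ hγ]

theorem mem_range_iff (χ : Additive (Gamma0 N) →+ ℂ) :
    χ ∈ LinearMap.range (periodHomPair N) ↔ IsParabolicHom (Gamma0 N) χ := by
  rw [(Fermat.Agent.S21.result N).2]
  exact mem_parabolicHoms_iff

theorem castH_mem_range (φ : H N) : castH N φ ∈ LinearMap.range (periodHomPair N) :=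
  (mem_range_iff N _).mpr ((isParabolicHom_cast_iff N φ.1).mpr φ.2)

theorem range_le_span :
    LinearMap.range (periodHomPair N) ≤ Submodule.span ℂ (Set.range (castH N)) := by
  intro χ hχ
  obtain ⟨a, rfl⟩ := exists_mkHom_eq N χ ((mem_range_iff N χ).mp hχ)
  have : mkHom N ℂ a = ∑ i, a i • castH N (basisH N i) := by
    ext γ
    simp [mkHom_apply, castH_apply, basisH_apply, mul_comm]
  rw [this]
  exact Submodule.sum_mem _ fun i _ => Submodule.smul_mem _ _ (Submodule.subset_span ⟨_, rfl⟩)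

/-- `τ_ℓ` preserves parabolic homs with complex coefficients -/
theorem tau_parabolic_complex (ℓ : Nat.Primes) (χ : Additive (Gamma0 N) →+ ℂ)
    (h : IsParabolicHom (Gamma0 N) χ) : IsParabolicHom (Gamma0 N) (tau N ℓ ℂ χ) := by
  obtain ⟨⟨f, g⟩, rfl⟩ := (mem_range_iff N χ).mpr h
  rw [tau_periodHomPair]
  exact (mem_range_iff N _).mp ⟨_, rfl⟩

theorem tau_parabolic_int (ℓ : Nat.Primes) (φ : Additive (Gamma0 N) →+ ℤ)
    (h : IsParabolicHom (Gamma0 N) φ) : IsParabolicHom (Gamma0 N) (tau N ℓ ℤ φ) := by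
  rw [← isParabolicHom_cast_iff, comp_tau]
  exact tau_parabolic_complex N ℓ _ ((isParabolicHom_cast_iff N φ).mpr h)

/-- `τ_ℓ` on the lattice `H` -/
noncomputable def tauH (ℓ : Nat.Primes) : Module.End ℤ (H N) :=
  AddMonoidHom.toIntLinearMap
    { toFun := fun φ => ⟨tau N ℓ ℤ φ.1, tau_parabolic_int N ℓ φ.1 φ.2⟩
      map_zero' := Subtype.ext (map_zero _)
      map_add' := fun φ ψ => Subtype.ext (map_add _ φ.1 ψ.1) }

theorem tauH_coe (ℓ : Nat.Primes) (φ : H N) :
    (tauH N ℓ φ : Additive (Gamma0 N) →+ ℤ) = tau N ℓ ℤ φ.1 := rfl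

theorem pres_gen (ℓ : Nat.Primes) :
    Pres (periodHomPair N) (castH N) (heckeFormsGen N 2 ℓ).1 := fun φ =>
  ⟨tauH N ℓ φ, fun f g h => by
    rw [castH_apply, tauH_coe, comp_tau, ← castH_apply, h, tau_periodHomPair]⟩

theorem pres_of_mem (S : Set ℕ) (t : Module.End ℂ (CuspForm (Gamma0 N) 2))
    (ht : t ∈ heckeAlgebra N 2 S) : Pres (periodHomPair N) (castH N) t := by
  have : heckeAlgebra N 2 S ≤ presSubalgebra (periodHomPair N) (castH N) := by
    refine Algebra.adjoin_le ?_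
    rintro T (⟨ℓ, hℓ, hℓN, -, rfl⟩ | ⟨q, hqN, hq, -, rfl⟩)
    · have := pres_gen N ⟨ℓ, hℓ⟩
      rw [heckeFormsGen_of_not_dvd (ℓ := ⟨ℓ, hℓ⟩) hℓN] at this
      exact this
    · have := pres_gen N ⟨q, hq⟩
      rw [heckeFormsGen_of_dvd (q := ⟨q, hq⟩) hqN] at this
      exact this
  exact this ht

theorem exists_Theta0 (S : Set ℕ) :
    ∃ θ : heckeAlgebra N 2 S →+* Module.End ℤ (H N), Function.Injective θ ∧
      ∀ (t : heckeAlgebra N 2 S) (x : H N) (f g : CuspForm (Gamma0 N) 2),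
        castH N x = periodHomPair N (f, g) → castH N (θ t x) = periodHomPair N (t.1 f, t.1 g) :=
  exists_theta (periodHomPair N) (Fermat.Agent.S21.result N).1 (castH N) (castH_injective N)
    (castH_mem_range N) (range_le_span N) (heckeAlgebra N 2 S) (pres_of_mem N S)

/-- **The action of the Hecke algebra on the lattice `H = Hom_par(Γ₀(N), ℤ)`.** -/
noncomputable def Theta0 (S : Set ℕ) : heckeAlgebra N 2 S →+* Module.End ℤ (H N) :=
  (exists_Theta0 N S).choose

theorem Theta0_injective (S : Set ℕ) : Function.Injective (Theta0 N S) :=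
  (exists_Theta0 N S).choose_spec.1

theorem Theta0_spec (S : Set ℕ) (t : heckeAlgebra N 2 S) (x : H N)
    (f g : CuspForm (Gamma0 N) 2) (h : castH N x = periodHomPair N (f, g)) :
    castH N (Theta0 N S t x) = periodHomPair N (t.1 f, t.1 g) :=
  (exists_Theta0 N S).choose_spec.2 t x f g h

theorem Theta0_gen (S : Set ℕ) (ℓ : Nat.Primes) (t : heckeAlgebra N 2 S)
    (ht : t.1 = (heckeFormsGen N 2 ℓ).1) : Theta0 N S t = tauH N ℓ := by
  refine LinearMap.ext fun x => castH_injective N ?_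
  obtain ⟨⟨f, g⟩, hfg⟩ := castH_mem_range N x
  rw [Theta0_spec N S _ x f g hfg.symm, castH_apply, tauH_coe, comp_tau, ← castH_apply, ← hfg,
    tau_periodHomPair, ht]

theorem Theta0_T (S : Set ℕ) {ℓ : ℕ} (hℓ : ℓ.Prime) (hℓN : ¬ ℓ ∣ N) (hℓS : ℓ ∉ S) :
    Theta0 N S (heckeAlgebra.T hℓ hℓN hℓS) = tauH N (⟨ℓ, hℓ⟩ : Nat.Primes) :=
  Theta0_gen N S (⟨ℓ, hℓ⟩ : Nat.Primes) _ (by
    rw [heckeFormsGen_of_not_dvd (ℓ := (⟨ℓ, hℓ⟩ : Nat.Primes)) hℓN]; rfl)

theorem Theta0_U (S : Set ℕ) {q : ℕ} (hq : q.Prime) (hqN : q ∣ N) (hqS : q ∉ S) :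
    Theta0 N S (heckeAlgebra.U hq hqN hqS) = tauH N (⟨q, hq⟩ : Nat.Primes) :=
  Theta0_gen N S (⟨q, hq⟩ : Nat.Primes) _ (by
    rw [heckeFormsGen_of_dvd (q := (⟨q, hq⟩ : Nat.Primes)) hqN]; rfl)

end Fermat.Agent.ES.Coh
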