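import Mathlib
import Fermat.Agent.ES.Mid.Interface
import Fermat.Agent.ES.Coh.Theta

/-!
# ES / Coh : elementary facts on `IsPE`, and `tau` on parabolic homs with torsion free coefficients
-/

set_option autoImplicit false
set_option linter.unusedSectionVars false

open CongruenceSubgroup ModularCurve ModularCurve.Period
open scoped MatrixGroups
open Fermat.Agent.S16.HH
open Fermat.Agent.ES.Mid (IsPE)

namespace Fermat.Agent.ES.Coh

theorem matrix_pow_twelve (A : Matrix (Fin 2) (Fin 2) ℤ) (hdet : A.det = 1)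
    (htr : A.trace ^ 2 < 4) : A ^ 12 = 1 := by
  have hCH : A ^ 2 = A.trace • A - 1 := by
    have h := Matrix.aeval_self_charpoly A
    rw [Matrix.charpoly_fin_two, hdet] at h
    simp only [map_add, map_sub, map_pow, Polynomial.aeval_X, map_mul, Polynomial.aeval_C,
      map_one] at h
    rw [Algebra.algebraMap_eq_smul_one, smul_mul_assoc, one_mul] at h
    rw [eq_sub_iff_add_eq, ← sub_eq_zero]
    rw [← h]
    abel
  have ht : A.trace = 0 ∨ A.trace = 1 ∨ A.trace = -1 := by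
    have h1 : A.trace < 2 := by nlinarith
    have h2 : -2 < A.trace := by nlinarith
    omega
  rcases ht with h | h | h
  · rw [h, zero_smul, zero_sub] at hCH
    calc A ^ 12 = (A ^ 2) ^ 6 := by rw [← pow_mul]
      _ = 1 := by rw [hCH]; exact Even.neg_one_pow (by decide)
  · rw [h, one_smul] at hCH
    have h3 : A ^ 3 = -1 := by
      calc A ^ 3 = A ^ 2 * A := by rw [pow_succ]
        _ = A ^ 2 - A := by rw [hCH, sub_mul, one_mul, ← pow_two, hCH]
        _ = -1 := by rw [hCH]; abel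
    calc A ^ 12 = (A ^ 3) ^ 4 := by rw [← pow_mul]
      _ = 1 := by rw [h3]; exact Even.neg_one_pow (by decide)
  · rw [h, neg_one_smul] at hCH
    have h3 : A ^ 3 = 1 := by
      calc A ^ 3 = A ^ 2 * A := by rw [pow_succ]
        _ = -A ^ 2 - A := by rw [hCH, sub_mul, one_mul, neg_mul, ← pow_two, hCH]
        _ = 1 := by rw [hCH]; abel
    calc A ^ 12 = (A ^ 3) ^ 4 := by rw [← pow_mul]
      _ = 1 := by rw [h3]; simp

theorem Gamma0_pow_twelve {N : ℕ} (γ : Gamma0 N)
    (htr : ((γ : SL(2, ℤ)) : Matrix (Fin 2) (Fin 2) ℤ).trace ^ 2 < 4) : γ ^ 12 = 1 := by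
  apply Subtype.ext
  apply Subtype.ext
  have := matrix_pow_twelve ((γ : SL(2, ℤ)) : Matrix (Fin 2) (Fin 2) ℤ) (γ : SL(2, ℤ)).2 htr
  simpa using this

section PE
variable {N : ℕ} {A B : Type*} [AddCommGroup A] [AddCommGroup B]

theorem IsPE.parabolic {χ : Additive (Gamma0 N) →+ A} (h : IsPE χ) :
    IsParabolicHom (Gamma0 N) χ := fun γ hγ => h γ hγ.le

theorem isPE_of_parabolic [IsAddTorsionFree A] {χ : Additive (Gamma0 N) →+ A}
    (h : IsParabolicHom (Gamma0 N) χ) : IsPE χ := by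
  intro γ hγ
  rcases hγ.lt_or_eq with h1 | h1
  · have h12 := Gamma0_pow_twelve γ h1
    have : (12 : ℕ) • χ (Additive.ofMul γ) = 0 := by
      rw [← map_nsmul, ← ofMul_pow, h12]
      exact map_zero χ
    exact (smul_eq_zero_iff_right (by norm_num)).mp this
  · exact h γ h1

theorem IsPE.comp {χ : Additive (Gamma0 N) →+ A} (h : IsPE χ) (u : A →+ B) : IsPE (u.comp χ) :=
  fun γ hγ => by rw [AddMonoidHom.comp_apply, h γ hγ, map_zero]

theorem IsPE.zero : IsPE (0 : Additive (Gamma0 N) →+ A) := fun _ _ => rfl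

theorem IsPE.add {χ χ' : Additive (Gamma0 N) →+ A} (h : IsPE χ) (h' : IsPE χ') : IsPE (χ + χ') :=
  fun γ hγ => by rw [AddMonoidHom.add_apply, h γ hγ, h' γ hγ, add_zero]

theorem IsPE.nsmul {χ : Additive (Gamma0 N) →+ A} (h : IsPE χ) (k : ℕ) : IsPE (k • χ) :=
  fun γ hγ => by rw [AddMonoidHom.nsmul_apply, h γ hγ, smul_zero]

end PE

variable (N : ℕ) [NeZero N]

theorem mkHom_eq_sum {A : Type*} [AddCommGroup A] (a : Fin (rk N) → A) :
    mkHom N A a = ∑ i, (zmultiplesHom A (a i)).comp (basisH N i).1 := by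
  ext γ
  simp [mkHom_apply, basisH_apply]

/-- `τ_ℓ` preserves parabolic homs with torsion free coefficients -/
theorem tau_parabolic_tf (ℓ : Nat.Primes) {A : Type} [AddCommGroup A] [IsAddTorsionFree A]
    (χ : Additive (Gamma0 N) →+ A) (h : IsParabolicHom (Gamma0 N) χ) :
    IsParabolicHom (Gamma0 N) (tau N ℓ A χ) := by
  obtain ⟨a, rfl⟩ := exists_mkHom_eq N χ h
  rw [mkHom_eq_sum, map_sum]
  have : ∀ i, tau N ℓ A ((zmultiplesHom A (a i)).comp (basisH N i).1) ∈
      parabolicHoms ℤ (Gamma0 N) A := fun i => by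
    rw [← comp_tau]
    intro γ hγ
    rw [AddMonoidHom.comp_apply, tau_parabolic_int N ℓ _ (basisH N i).2 γ hγ, map_zero]
  exact Submodule.sum_mem (parabolicHoms ℤ (Gamma0 N) A) fun i _ => this i

theorem tau_smul (ℓ : Nat.Primes) {R : Type*} [Ring R] (c : R) (χ : Additive (Gamma0 N) →+ R) :
    tau N ℓ R (c • χ) = c • tau N ℓ R χ := by
  have h1 : ∀ ψ : Additive (Gamma0 N) →+ R, c • ψ = (AddMonoidHom.mulLeft c).comp ψ := fun ψ => by
    ext γ; simp
  rw [h1, h1, comp_tau]

end Fermat.Agent.ES.Coh
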