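import Mathlib

/-!
# ES / Coh : `ℤ_p` as the inverse limit of the `ℤ/p^n` for additive homomorphisms
-/

set_option autoImplicit false

namespace Fermat.Agent.ES.Coh

variable (p : ℕ) [hp : Fact p.Prime]

/-- compatible sequences in `∏ ℤ/p^n` -/
def compatSubring : Subring (∀ n : ℕ, ZMod (p ^ n)) where
  carrier := {x | ∀ (k1 k2 : ℕ) (hk : k1 ≤ k2),
    ZMod.castHom (pow_dvd_pow p hk) (ZMod (p ^ k1)) (x k2) = x k1}
  mul_mem' := fun {a b} ha hb k1 k2 hk => by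
    rw [Pi.mul_apply, map_mul, ha k1 k2 hk, hb k1 k2 hk, Pi.mul_apply]
  one_mem' := fun k1 k2 hk => by rw [Pi.one_apply, map_one, Pi.one_apply]
  add_mem' := fun {a b} ha hb k1 k2 hk => by
    rw [Pi.add_apply, map_add, ha k1 k2 hk, hb k1 k2 hk, Pi.add_apply]
  zero_mem' := fun k1 k2 hk => by rw [Pi.zero_apply, map_zero, Pi.zero_apply]
  neg_mem' := fun {a} ha k1 k2 hk => by
    rw [Pi.neg_apply, map_neg, ha k1 k2 hk, Pi.neg_apply]

/-- the limit of a compatible sequence -/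
noncomputable def compatLim : compatSubring p →+* ℤ_[p] :=
  PadicInt.lift (f := fun k => (Pi.evalRingHom (fun n : ℕ => ZMod (p ^ n)) k).comp
    (compatSubring p).subtype) (fun k1 k2 hk => by
      ext x
      exact x.2 k1 k2 hk)

theorem toZModPow_compatLim (x : compatSubring p) (n : ℕ) :
    PadicInt.toZModPow n (compatLim p x) = x.1 n :=
  RingHom.congr_fun (PadicInt.lift_spec (f := fun k =>
    (Pi.evalRingHom (fun n : ℕ => ZMod (p ^ n)) k).comp (compatSubring p).subtype) _ n) x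

variable {M : Type*} [AddMonoid M]

/-- reduction mod `p^n` of a hom to `ℤ_p` -/
noncomputable def redP (n : ℕ) (χ : M →+ ℤ_[p]) : M →+ ZMod (p ^ n) :=
  (PadicInt.toZModPow n).toAddMonoidHom.comp χ

theorem redP_apply (n : ℕ) (χ : M →+ ℤ_[p]) (x : M) :
    redP p n χ x = PadicInt.toZModPow n (χ x) := rfl

theorem redP_ext {χ χ' : M →+ ℤ_[p]} (h : ∀ n, redP p n χ = redP p n χ') : χ = χ' := by
  ext x
  exact PadicInt.ext_of_toZModPow.mp fun n => DFunLike.congr_fun (h n) x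

/-- the limit of a compatible sequence of homs -/
noncomputable def limHom (ψ : ∀ n : ℕ, M →+ ZMod (p ^ n))
    (hψ : ∀ (k1 k2 : ℕ) (hk : k1 ≤ k2) (x : M),
      ZMod.castHom (pow_dvd_pow p hk) (ZMod (p ^ k1)) (ψ k2 x) = ψ k1 x) : M →+ ℤ_[p] :=
  (compatLim p).toAddMonoidHom.comp
    { toFun := fun x => ⟨fun n => ψ n x, fun k1 k2 hk => hψ k1 k2 hk x⟩
      map_zero' := by ext n; simp
      map_add' := fun x y => by ext n; simp }

theorem redP_limHom (ψ : ∀ n : ℕ, M →+ ZMod (p ^ n))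
    (hψ : ∀ (k1 k2 : ℕ) (hk : k1 ≤ k2) (x : M),
      ZMod.castHom (pow_dvd_pow p hk) (ZMod (p ^ k1)) (ψ k2 x) = ψ k1 x) (n : ℕ) :
    redP p n (limHom p ψ hψ) = ψ n := by
  ext x
  exact toZModPow_compatLim p _ n

theorem castHom_redP (k1 k2 : ℕ) (hk : k1 ≤ k2) (χ : M →+ ℤ_[p]) (x : M) :
    ZMod.castHom (pow_dvd_pow p hk) (ZMod (p ^ k1)) (redP p k2 χ x) = redP p k1 χ x :=
  RingHom.congr_fun (PadicInt.zmod_cast_comp_toZModPow k1 k2 hk) (χ x)

theorem redP_add (n : ℕ) (χ χ' : M →+ ℤ_[p]) : redP p n (χ + χ') = redP p n χ + redP p n χ' := by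
  ext x; simp [redP_apply]

theorem redP_smul_eq_nsmul (n : ℕ) (c : ℤ_[p]) (χ : M →+ ℤ_[p]) :
    redP p n (c • χ) = (PadicInt.toZModPow n c).val • redP p n χ := by
  ext x
  have : NeZero (p ^ n) := ⟨pow_ne_zero _ hp.1.ne_zero⟩
  simp [redP_apply]

theorem exists_eq_pow_smul_of_redP_eq_zero (n : ℕ) (c : ℤ_[p])
    (h : PadicInt.toZModPow n c = 0) : ∃ d : ℤ_[p], c = (p : ℤ_[p]) ^ n * d := by
  have : c ∈ RingHom.ker (PadicInt.toZModPow (p := p) n) := h
  rw [PadicInt.ker_toZModPow, Ideal.mem_span_singleton] at this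
  exact this

end Fermat.Agent.ES.Coh
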