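import Mathlib
import Fermat.Agent.ES.Mid.Interface
import Fermat.Agent.ES.Coh.PE
import Fermat.Agent.ES.Coh.Padic

/-!
# ES / Coh : from finite level data to a `ℤ_p`-linear Galois action on `Hom_par(Γ₀(N), ℤ_p)`
-/

set_option autoImplicit false
set_option linter.unusedSectionVars false

open CongruenceSubgroup ModularCurve ModularCurve.Period
open scoped MatrixGroups
open Fermat.Agent.S16.HH
open Fermat.Agent.S24 (Qbar)
open Fermat.Agent.ES.Mid (IsPE GQ redChar Stmt_FinLevel)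

namespace Fermat.Agent.ES.Coh

/-- the content of `Mid.Stmt_FinLevel` at level `N`, bundled -/
structure FinLevelData (N : ℕ) [NeZero N] where
  act : ∀ (m : ℕ) [NeZero m], GQ → (Additive (Gamma0 N) →+ ZMod m) →
    (Additive (Gamma0 N) →+ ZMod m)
  pe : ∀ (m : ℕ) [NeZero m] (σ : GQ) χ, IsPE χ → IsPE (act m σ χ)
  add : ∀ (m : ℕ) [NeZero m] (σ : GQ) χ χ', IsPE χ → IsPE χ' →
    act m σ (χ + χ') = act m σ χ + act m σ χ'
  one : ∀ (m : ℕ) [NeZero m] χ, IsPE χ → act m 1 χ = χ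
  mul : ∀ (m : ℕ) [NeZero m] (σ τ : GQ) χ, IsPE χ → act m (σ * τ) χ = act m σ (act m τ χ)
  red : ∀ (m m' : ℕ) [NeZero m] [NeZero m'] (h : m ∣ m') (σ : GQ) χ, IsPE χ →
    redChar h (act m' σ χ) = act m σ (redChar h χ)
  tau : ∀ (m : ℕ) [NeZero m] (ℓ : Nat.Primes), ¬ (ℓ : ℕ) ∣ N → ∀ (σ : GQ) χ, IsPE χ →
    act m σ (Mid.tau N ℓ (ZMod m) χ) = Mid.tau N ℓ (ZMod m) (act m σ χ)
  level : ∀ (m : ℕ) [NeZero m], ∃ L : IntermediateField ℚ Qbar, FiniteDimensional ℚ L ∧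
    ∀ σ : GQ, (∀ x ∈ L, σ x = x) → ∀ χ, IsPE χ → act m σ χ = χ
  inertia : ∀ (m : ℕ) [NeZero m] (q : ℕ), q.Prime → ¬ q ∣ N → ¬ q ∣ m →
    ∀ A : ValuationSubring Qbar, A.LiesOverPrime q → ∀ σ ∈ A.inertiaSubgroupIn ℚ,
      ∀ χ, IsPE χ → act m σ χ = χ
  es : ∀ (m : ℕ) [NeZero m] (ℓ : Nat.Primes), ¬ (ℓ : ℕ) ∣ N → ¬ (ℓ : ℕ) ∣ m →
    ∀ A : ValuationSubring Qbar, A.LiesOverPrime ℓ → ∀ σ : GQ, A.IsFrobeniusAt σ ℓ →
      ∀ χ, IsPE χ →
        act m σ (act m σ χ) - Mid.tau N ℓ (ZMod m) (act m σ χ) + (ℓ : ℕ) • χ = 0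

theorem nonempty_finLevelData (h : Stmt_FinLevel) (N : ℕ) [NeZero N] :
    Nonempty (FinLevelData N) := by
  obtain ⟨act, h1, h2, h3, h4, h5, h6, h7, h8, h9⟩ := h N
  exact ⟨⟨act, h1, h2, h3, h4, h5, h6, h7, h8, h9⟩⟩

variable {N : ℕ} [NeZero N] (D : FinLevelData N) (p : ℕ) [hp : Fact p.Prime]

instance neZero_prime_pow (n : ℕ) : NeZero (p ^ n) := ⟨pow_ne_zero n hp.1.ne_zero⟩

theorem FinLevelData.act_zero (m : ℕ) [NeZero m] (σ : GQ) : D.act m σ 0 = 0 := by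
  have := D.add m σ 0 0 IsPE.zero IsPE.zero
  rw [add_zero] at this
  exact left_eq_add.mp this

theorem FinLevelData.act_nsmul (m : ℕ) [NeZero m] (σ : GQ) (k : ℕ)
    (χ : Additive (Gamma0 N) →+ ZMod m) (h : IsPE χ) : D.act m σ (k • χ) = k • D.act m σ χ := by
  induction k with
  | zero => rw [zero_smul, zero_smul, D.act_zero]
  | succ k ih => rw [succ_nsmul, succ_nsmul, D.add m σ _ _ (IsPE.nsmul h k) h, ih]

variable (N) in
/-- `Λ = Hom_par(Γ₀(N), ℤ_p)` -/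
abbrev Lam : Type := parabolicHoms ℤ_[p] (Gamma0 N) ℤ_[p]

theorem isPE_redP (χ : Lam N p) (n : ℕ) : IsPE (redP p n χ.1) :=
  IsPE.comp (isPE_of_parabolic χ.2) _

theorem redChar_redP (k1 k2 : ℕ) (hk : k1 ≤ k2) (χ : Additive (Gamma0 N) →+ ℤ_[p]) :
    redChar (pow_dvd_pow p hk) (redP p k2 χ) = redP p k1 χ :=
  AddMonoidHom.ext fun x => castHom_redP p k1 k2 hk χ x

theorem lam_ext {χ χ' : Lam N p} (h : ∀ n, redP p n χ.1 = redP p n χ'.1) : χ = χ' :=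
  Subtype.ext (redP_ext p h)

/-- the Galois action, raw version -/
noncomputable def rhoRaw (σ : GQ) (χ : Lam N p) : Additive (Gamma0 N) →+ ℤ_[p] :=
  limHom p (fun n => D.act (p ^ n) σ (redP p n χ.1)) (fun k1 k2 hk x => by
    have := D.red (p ^ k1) (p ^ k2) (pow_dvd_pow p hk) σ (redP p k2 χ.1) (isPE_redP p χ k2)
    rw [redChar_redP p k1 k2 hk] at this
    exact DFunLike.congr_fun this x)

theorem redP_rhoRaw (σ : GQ) (χ : Lam N p) (n : ℕ) :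
    redP p n (rhoRaw D p σ χ) = D.act (p ^ n) σ (redP p n χ.1) :=
  redP_limHom p _ _ n

theorem rhoRaw_parabolic (σ : GQ) (χ : Lam N p) :
    IsParabolicHom (Gamma0 N) (rhoRaw D p σ χ) := by
  intro γ hγ
  refine PadicInt.ext_of_toZModPow.mp fun n => ?_
  rw [map_zero, ← redP_apply, redP_rhoRaw]
  exact D.pe (p ^ n) σ _ (isPE_redP p χ n) γ hγ.le

/-- the Galois action on `Λ` as a function -/
noncomputable def rhoFun (σ : GQ) (χ : Lam N p) : Lam N p :=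
  ⟨rhoRaw D p σ χ, rhoRaw_parabolic D p σ χ⟩

theorem redP_rhoFun (σ : GQ) (χ : Lam N p) (n : ℕ) :
    redP p n (rhoFun D p σ χ).1 = D.act (p ^ n) σ (redP p n χ.1) :=
  redP_rhoRaw D p σ χ n

/-- the Galois action on `Λ`, linear version -/
noncomputable def rhoLin (σ : GQ) : Module.End ℤ_[p] (Lam N p) where
  toFun := rhoFun D p σ
  map_add' χ χ' := lam_ext p fun n => by
    rw [redP_rhoFun]
    show D.act (p ^ n) σ (redP p n (χ.1 + χ'.1)) = redP p n ((rhoFun D p σ χ).1 + (rhoFun D p σ χ').1)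
    rw [redP_add, redP_add, D.add _ σ _ _ (isPE_redP p χ n) (isPE_redP p χ' n), redP_rhoFun,
      redP_rhoFun]
  map_smul' c χ := lam_ext p fun n => by
    rw [redP_rhoFun]
    show D.act (p ^ n) σ (redP p n (c • χ.1)) = redP p n (c • (rhoFun D p σ χ).1)
    rw [redP_smul_eq_nsmul, redP_smul_eq_nsmul, D.act_nsmul _ σ _ _ (isPE_redP p χ n), redP_rhoFun]

theorem redP_rhoLin (σ : GQ) (χ : Lam N p) (n : ℕ) :
    redP p n (rhoLin D p σ χ).1 = D.act (p ^ n) σ (redP p n χ.1) :=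
  redP_rhoRaw D p σ χ n

/-- **the Galois action on `Λ = Hom_par(Γ₀(N), ℤ_p)`** -/
noncomputable def rho : GQ →* Module.End ℤ_[p] (Lam N p) where
  toFun := rhoLin D p
  map_one' := LinearMap.ext fun χ => lam_ext p fun n => by
    rw [redP_rhoLin, D.one _ _ (isPE_redP p χ n)]
    rfl
  map_mul' σ τ := LinearMap.ext fun χ => lam_ext p fun n => by
    rw [redP_rhoLin, D.mul _ σ τ _ (isPE_redP p χ n)]
    show _ = redP p n (rhoLin D p σ (rhoLin D p τ χ)).1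
    rw [redP_rhoLin, redP_rhoLin]

theorem redP_rho (σ : GQ) (χ : Lam N p) (n : ℕ) :
    redP p n (rho D p σ χ).1 = D.act (p ^ n) σ (redP p n χ.1) :=
  redP_rhoRaw D p σ χ n

/-- `τ_ℓ` on `Λ` -/
noncomputable def tauLam (ℓ : Nat.Primes) : Module.End ℤ_[p] (Lam N p) where
  toFun χ := ⟨tau N ℓ ℤ_[p] χ.1, tau_parabolic_tf N ℓ χ.1 χ.2⟩
  map_add' χ χ' := Subtype.ext (map_add _ χ.1 χ'.1)
  map_smul' c χ := Subtype.ext (tau_smul N ℓ c χ.1)

theorem tauLam_coe (ℓ : Nat.Primes) (χ : Lam N p) :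
    (tauLam p ℓ χ).1 = tau N ℓ ℤ_[p] χ.1 := rfl

theorem redP_tauLam (ℓ : Nat.Primes) (χ : Lam N p) (n : ℕ) :
    redP p n (tauLam p ℓ χ).1 = tau N ℓ (ZMod (p ^ n)) (redP p n χ.1) :=
  comp_tau N ℓ _ χ.1

theorem rho_comm_tauLam (ℓ : Nat.Primes) (hℓ : ¬ (ℓ : ℕ) ∣ N) (σ : GQ) :
    rho D p σ * tauLam p ℓ = tauLam p ℓ * rho D p σ :=
  LinearMap.ext fun χ => lam_ext p fun n => by
    show redP p n (rho D p σ (tauLam p ℓ χ)).1 = redP p n (tauLam p ℓ (rho D p σ χ)).1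
    rw [redP_rho, redP_tauLam, redP_tauLam, redP_rho]
    exact D.tau _ ℓ hℓ σ _ (isPE_redP p χ n)

theorem not_dvd_pow_of_ne {q : ℕ} (hq : q.Prime) (hqp : q ≠ p) (n : ℕ) : ¬ q ∣ p ^ n :=
  fun h => hqp ((Nat.prime_dvd_prime_iff_eq hq hp.1).mp (hq.dvd_of_dvd_pow h))

theorem rho_inertia (q : ℕ) (hq : q.Prime) (hqN : ¬ q ∣ N) (hqp : q ≠ p)
    (A : ValuationSubring Qbar) (hA : A.LiesOverPrime q) (σ : GQ)
    (hσ : σ ∈ A.inertiaSubgroupIn ℚ) : rho D p σ = 1 :=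
  LinearMap.ext fun χ => lam_ext p fun n => by
    rw [redP_rho, D.inertia _ q hq hqN (not_dvd_pow_of_ne p hq hqp n) A hA σ hσ _ (isPE_redP p χ n)]
    rfl

theorem redP_sub (n : ℕ) (χ χ' : Additive (Gamma0 N) →+ ℤ_[p]) :
    redP p n (χ - χ') = redP p n χ - redP p n χ' := by
  ext x; simp [redP_apply]

theorem redP_nsmul (n k : ℕ) (χ : Additive (Gamma0 N) →+ ℤ_[p]) :
    redP p n (k • χ) = k • redP p n χ := by
  ext x; simp [redP_apply]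

theorem rho_es (ℓ : Nat.Primes) (hℓN : ¬ (ℓ : ℕ) ∣ N) (hℓp : (ℓ : ℕ) ≠ p)
    (A : ValuationSubring Qbar) (hA : A.LiesOverPrime ℓ) (σ : GQ) (hσ : A.IsFrobeniusAt σ ℓ) :
    rho D p σ * rho D p σ - tauLam p ℓ * rho D p σ + ((ℓ : ℕ) : ℤ_[p]) • 1 = 0 :=
  LinearMap.ext fun χ => lam_ext p fun n => by
    show redP p n ((rho D p σ (rho D p σ χ)).1 - (tauLam p ℓ (rho D p σ χ)).1
      + (((ℓ : ℕ) : ℤ_[p]) • χ).1) = redP p n 0
    have h0 : (((ℓ : ℕ) : ℤ_[p]) • χ).1 = (ℓ : ℕ) • χ.1 := by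
      rw [Nat.cast_smul_eq_nsmul]; rfl
    rw [h0, redP_add, redP_sub, redP_nsmul, redP_rho, redP_tauLam, redP_rho]
    rw [D.es _ ℓ hℓN (not_dvd_pow_of_ne p ℓ.2 hℓp n) A hA σ hσ _ (isPE_redP p χ n)]
    ext x; simp [redP_apply]

theorem rho_level (n : ℕ) : ∃ L : IntermediateField ℚ Qbar, FiniteDimensional ℚ L ∧
    ∀ σ : GQ, (∀ x ∈ L, σ x = x) → ∀ v : Lam N p, ∃ w : Lam N p,
      rho D p σ v - v = (p : ℤ_[p]) ^ n • w := by
  obtain ⟨L, hL, h⟩ := D.level (p ^ n)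
  refine ⟨L, hL, fun σ hσ v => ?_⟩
  have h1 : redP p n (rho D p σ v - v).1 = 0 := by
    show redP p n ((rho D p σ v).1 - v.1) = 0
    rw [redP_sub, redP_rho, h σ hσ _ (isPE_redP p v n), sub_self]
  obtain ⟨a, ha⟩ := (parEquiv N ℤ_[p] ℤ_[p]).surjective (rho D p σ v - v)
  have h2 : ∀ i, ∃ d : ℤ_[p], a i = (p : ℤ_[p]) ^ n * d := fun i => by
    classical
    apply exists_eq_pow_smul_of_redP_eq_zero
    obtain ⟨γ, hγ⟩ := univ_surjective N (Pi.single i 1)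
    have h3 : (rho D p σ v - v).1 γ = a i := by
      rw [← ha, parEquiv_apply, mkHom_apply, hγ]
      simp [Pi.single_apply, ite_smul]
    rw [← h3, ← redP_apply, h1]
    rfl
  choose d hd using h2
  refine ⟨parEquiv N ℤ_[p] ℤ_[p] d, ?_⟩
  rw [← ha, ← map_smul]
  congr 1
  funext i
  rw [hd i]
  rfl

end Fermat.Agent.ES.Coh
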