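import Mathlib
import Fermat.Agent.ES.RepInterface
import Fermat.Agent.ES.Coh.Rho

/-!
# ES / Coh : `Mid.Stmt_FinLevel → Rep.Stmt_ES`
-/

set_option autoImplicit false
set_option linter.unusedSectionVars false

open CongruenceSubgroup ModularCurve ModularCurve.Period CuspForm
open scoped MatrixGroups TensorProduct
open Fermat.Agent.S16.HH
open Fermat.Agent.S24 (Qbar)
open Fermat.Agent.ES.Mid (IsPE GQ redChar Stmt_FinLevel)

namespace Fermat.Agent.ES.Coh

variable (N : ℕ) [NeZero N] (p : ℕ) [hp : Fact p.Prime]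

/-- `ι : H → Λ` -/
noncomputable def castLam : H N →ₗ[ℤ] Lam N p :=
  AddMonoidHom.toIntLinearMap
    { toFun := fun φ => ⟨(Int.castAddHom ℤ_[p]).comp φ.1, fun γ hγ => by
        rw [AddMonoidHom.comp_apply, φ.2 γ hγ, map_zero]⟩
      map_zero' := Subtype.ext (by ext; simp)
      map_add' := fun φ ψ => Subtype.ext (by ext; simp) }

theorem castLam_coe (φ : H N) : (castLam N p φ).1 = (Int.castAddHom ℤ_[p]).comp φ.1 := rfl

/-- the basis of `Λ` -/
noncomputable def basisLam : Module.Basis (Fin (rk N)) ℤ_[p] (Lam N p) :=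
  Module.Basis.ofEquivFun (parEquiv N ℤ_[p] ℤ_[p]).symm

theorem castLam_basisH (i : Fin (rk N)) : castLam N p (basisH N i) = basisLam N p i := by
  classical
  have : basisLam N p i = parEquiv N ℤ_[p] ℤ_[p] (Pi.single i 1) := by
    simp [basisLam]
  rw [this]
  apply Subtype.ext
  rw [parEquiv_apply, castLam_coe]
  ext γ
  simp [mkHom_apply, basisH_apply, Pi.single_apply]

/-- `ℤ_p ⊗ H ≃ Λ` -/
noncomputable def eLam : ℤ_[p] ⊗[ℤ] H N ≃ₗ[ℤ_[p]] Lam N p :=
  ((basisH N).baseChange ℤ_[p]).equiv (basisLam N p) (Equiv.refl _)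

theorem eLam_tmul (φ : H N) : eLam N p (1 ⊗ₜ φ) = castLam N p φ := by
  have : ((eLam N p).toLinearMap.restrictScalars ℤ).comp (TensorProduct.mk ℤ ℤ_[p] (H N) 1)
      = castLam N p := by
    refine (basisH N).ext fun i => ?_
    show eLam N p (1 ⊗ₜ basisH N i) = _
    rw [castLam_basisH, ← Module.Basis.baseChange_apply, eLam, Module.Basis.equiv_apply]
    rfl
  exact LinearMap.congr_fun this φ

theorem isBaseChange_castLam : IsBaseChange ℤ_[p] (castLam N p) :=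
  IsBaseChange.of_equiv (eLam N p) (eLam_tmul N p)

/-- the Hecke action on `Λ` -/
noncomputable def ThetaLam (S : Set ℕ) : heckeAlgebra N 2 S →+* Module.End ℤ_[p] (Lam N p) :=
  ((eLam N p).conjRingEquiv.toRingHom).comp
    ((Module.End.baseChangeHom ℤ ℤ_[p] (H N)).toRingHom.comp (Theta0 N S))

theorem ThetaLam_castLam (S : Set ℕ) (x : heckeAlgebra N 2 S) (h : H N) :
    ThetaLam N p S x (castLam N p h) = castLam N p (Theta0 N S x h) := by
  show eLam N p ((Theta0 N S x).baseChange ℤ_[p] ((eLam N p).symm (castLam N p h))) = _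
  rw [← eLam_tmul, LinearEquiv.symm_apply_apply, LinearMap.baseChange_tmul, eLam_tmul]

theorem castLam_tauH (ℓ : Nat.Primes) (h : H N) :
    castLam N p (tauH N ℓ h) = tauLam p ℓ (castLam N p h) := by
  apply Subtype.ext
  rw [castLam_coe, tauH_coe, comp_tau, tauLam_coe, castLam_coe]

theorem ThetaLam_T (S : Set ℕ) {ℓ : ℕ} (hℓ : ℓ.Prime) (hℓN : ¬ ℓ ∣ N) (hℓS : ℓ ∉ S) :
    ThetaLam N p S (heckeAlgebra.T hℓ hℓN hℓS) = tauLam p (⟨ℓ, hℓ⟩ : Nat.Primes) := by
  refine (isBaseChange_castLam N p).algHom_ext _ _ fun h => ?_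
  rw [ThetaLam_castLam, Theta0_T]
  exact castLam_tauH N p _ h

theorem rho_comm_ThetaLam (D : FinLevelData N) (S : Set ℕ)
    (hNS : ∀ q : ℕ, q.Prime → q ∣ N → q ∈ S) (σ : GQ) (x : heckeAlgebra N 2 S) :
    rho D p σ * ThetaLam N p S x = ThetaLam N p S x * rho D p σ := by
  obtain ⟨x, hx⟩ := x
  induction hx using Algebra.adjoin_induction with
  | mem t ht =>
    rcases ht with ⟨ℓ, hℓ, hℓN, hℓS, rfl⟩ | ⟨q, hqN, hq, hqS, rfl⟩
    · have := ThetaLam_T N p S hℓ hℓN hℓS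
      have h2 : ThetaLam N p S ⟨heckeTLin 2 hℓ hℓN, Algebra.subset_adjoin
          (Or.inl ⟨ℓ, hℓ, hℓN, hℓS, rfl⟩)⟩ = tauLam p (⟨ℓ, hℓ⟩ : Nat.Primes) := this
      rw [h2]
      exact rho_comm_tauLam D p (⟨ℓ, hℓ⟩ : Nat.Primes) hℓN σ
    · exact absurd (hNS q hq hqN) hqS
  | algebraMap r =>
    have : (⟨algebraMap ℤ _ r, Subalgebra.algebraMap_mem _ r⟩ : heckeAlgebra N 2 S)
        = algebraMap ℤ (heckeAlgebra N 2 S) r := rfl
    rw [this]
    have h2 : ThetaLam N p S (algebraMap ℤ (heckeAlgebra N 2 S) r) = (r : Module.End ℤ_[p] (Lam N p)) := by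
      rw [eq_intCast (algebraMap ℤ (heckeAlgebra N 2 S)) r, map_intCast]
    rw [h2]
    exact (Int.cast_commute r (rho D p σ)).symm.eq
  | add a b ha hb iha ihb =>
    have : (⟨a + b, Subalgebra.add_mem _ ha hb⟩ : heckeAlgebra N 2 S) = ⟨a, ha⟩ + ⟨b, hb⟩ := rfl
    rw [this, map_add, mul_add, add_mul, iha, ihb]
  | mul a b ha hb iha ihb =>
    have : (⟨a * b, Subalgebra.mul_mem _ ha hb⟩ : heckeAlgebra N 2 S) = ⟨a, ha⟩ * ⟨b, hb⟩ := rfl
    rw [this, map_mul, ← mul_assoc, iha, mul_assoc, ihb, mul_assoc]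

/-- **Assembly**: finite level data give an Eichler-Shimura module. -/
noncomputable def esModule (D : FinLevelData N) (S : Set ℕ)
    (hNS : ∀ q : ℕ, q.Prime → q ∣ N → q ∈ S) : Rep.ESModule p N S where
  H := H N
  Θ := Theta0 N S
  Θ_injective := Theta0_injective N S
  Λ := Lam N p
  ι := castLam N p
  isBaseChange := isBaseChange_castLam N p
  ΘΛ := ThetaLam N p S
  ΘΛ_ι := ThetaLam_castLam N p S
  ρ := rho D p
  comm := rho_comm_ThetaLam N p D S hNS
  continuous := rho_level D p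
  eichlerShimura := fun ℓ hℓ hℓN hℓS hℓp A hA σ hσ => by
    rw [ThetaLam_T]
    exact rho_es D p (⟨ℓ, hℓ⟩ : Nat.Primes) hℓN hℓp A hA σ hσ
  unramified := fun q hq hqN hqp P hP σ hσ => rho_inertia D p q hq hqN hqp P hP σ hσ

theorem stmt_ES_of_finLevel (h : Stmt_FinLevel) : Rep.Stmt_ES := by
  intro p _ N _ S _ hNS
  obtain ⟨D⟩ := nonempty_finLevelData h N
  exact ⟨esModule N p D (↑S : Set ℕ) hNS⟩

end Fermat.Agent.ES.Coh
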